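import Fermat.Agent.LT.A2.H416.MeanSpec

/-!
# Row LT, tower A2, leaf A2.03.7.3 ARCH-INV (registry 1128) — helper510, OFF-MAIN

`archInvC_h510 : H416.ArchInvC`, verbatim against `LT/A2/H416/MeanSpec.lean`
(helper416@957b73407, sha256 4437dde0d7dedaa3).

The Whittaker function of good data is right invariant under every `u` which has a partner
`κ ∈ T(𝔸_K)` with `det κ = det u`, `χT κ = 1`, `F (g u) (m κ) = F g m`
(`whit_right_inv_h510`); the fields `arch_scalar`, `arch_compact` (and `level`) of
`KData.IsRightInv` provide such partners.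

* `g ∈ GL₂(𝔸_K)⁺`, `(g, m_g)` admissible: `(g u, m_g κ)` is admissible and the integrands of the
  two orbital integrals agree on `T¹(𝔸_K)`; the torus measure is carried by `T¹(𝔸_K)`
  (`IsMeasured.carried`), so no measurability of `T¹` is needed.
* `g ∉ GL₂(𝔸_K)⁺`: then `g u ∉ GL₂(𝔸_K)⁺`, because `(g u, m')` admissible gives
  `(g, m' κ⁻¹)` admissible (the torus is stable under inverses), and both sides vanish.

`T1Out` is not used.
-/

set_option autoImplicit false
set_option linter.style.haveILetI false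

open IsDedekindDomain NumberField AutomorphicForm MeasureTheory
open scoped MatrixGroups Topology

noncomputable section

namespace Fermat.Agent.LT.A2.H510

open Fermat.Agent.LT.H130 Fermat.Agent.LT.H556 Fermat.Agent.LT.A2

variable {K : Type} [Field K] [NumberField K]

/-! ## The torus is a group -/

/-- The product of two matrices of the torus. -/
theorem torMat_mul_h510 {R : Type*} [CommRing R] (t n a b a' b' : R) :
    torMat t n a b * torMat t n a' b'
      = torMat t n (a * a' - n * b * b') (a * b' + b * a' + t * b * b') := by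
  ext i j
  fin_cases i <;> fin_cases j <;>
    simp [torMat, Matrix.mul_apply, Fin.sum_univ_two] <;> ring

/-- The unit matrix of the torus. -/
theorem torMat_one_h510 {R : Type*} [CommRing R] (t n : R) :
    torMat t n 1 0 = (1 : Matrix (Fin 2) (Fin 2) R) := by
  ext i j
  fin_cases i <;> fin_cases j <;> simp [torMat]

/-- The determinant of a matrix of the torus. -/
theorem det_torMat_h510 {R : Type*} [CommRing R] (t n a b : R) :
    (torMat t n a b).det = a * (a + t * b) + n * b * b := by
  rw [torMat, Matrix.det_fin_two_of]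
  ring

/-- The torus is stable under multiplication. -/
theorem inTorus_mul_h510 {t n : K} {m m' : A0.G K} (h : InTorus t n m) (h' : InTorus t n m') :
    InTorus t n (m * m') := by
  obtain ⟨a, b, hm⟩ := h
  obtain ⟨a', b', hm'⟩ := h'
  refine ⟨a * a' - algebraMap K (A0.Adl K) n * b * b',
    a * b' + b * a' + algebraMap K (A0.Adl K) t * b * b', ?_⟩
  rw [Units.val_mul, hm, hm', torMat_mul_h510]

/-- The torus is stable under inverses. -/
theorem inTorus_inv_h510 {t n : K} {m : A0.G K} (h : InTorus t n m) : InTorus t n m⁻¹ := by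
  obtain ⟨a, b, hm⟩ := h
  set T := algebraMap K (A0.Adl K) t with hT
  set N := algebraMap K (A0.Adl K) n with hN
  set u : A0.Adl K := (((Matrix.GeneralLinearGroup.det m)⁻¹ : (A0.Adl K)ˣ) : A0.Adl K) with hu
  have hd : ((Matrix.GeneralLinearGroup.det m : (A0.Adl K)ˣ) : A0.Adl K)
      = a * (a + T * b) + N * b * b := by
    rw [Matrix.GeneralLinearGroup.val_det_apply, hm, det_torMat_h510]
  have hud : (a * (a + T * b) + N * b * b) * u = 1 := by
    rw [← hd, hu]
    exact Units.mul_inv _
  refine ⟨(a + T * b) * u, -b * u, ?_⟩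
  refine Units.inv_eq_of_mul_eq_one_right ?_
  rw [hm, torMat_mul_h510]
  have h1 : a * ((a + T * b) * u) - N * b * (-b * u) = 1 := by
    calc a * ((a + T * b) * u) - N * b * (-b * u)
        = (a * (a + T * b) + N * b * b) * u := by ring
      _ = 1 := hud
  have h2 : a * (-b * u) + b * ((a + T * b) * u) + T * b * (-b * u) = 0 := by ring
  rw [h1, h2, torMat_one_h510]

/-! ## Equality of orbital integrals -/

/-- Two functions which agree on `T¹(𝔸_K)` have the same orbital integral. -/
theorem intT_congr_h510 (D : KData K) (hcar : D.μT {m | ¬ InTorus1 D.t D.n m} = 0)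
    (f₁ f₂ : A0.G K → ℂ) (h : ∀ m : A0.G K, InTorus1 D.t D.n m → f₁ m = f₂ m) :
    D.intT {m | InTorus1 D.t D.n m} f₁ = D.intT {m | InTorus1 D.t D.n m} f₂ := by
  unfold KData.intT
  letI : MeasurableSpace (A0.G K) := borel (A0.G K)
  refine integral_congr_ae ?_
  have h0 : (D.μT.restrict {m | InTorus1 D.t D.n m}) {m | ¬ InTorus1 D.t D.n m} = 0 :=
    le_antisymm ((Measure.restrict_le_self _).trans hcar.le) zero_le
  rw [Filter.EventuallyEq, ae_iff]
  exact measure_mono_null (fun m hm hin => hm (h m hin)) h0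

/-! ## Right invariance of the Whittaker function -/

/-- **Right invariance.**  If `u` has a partner `κ` in the torus (`det κ = det u`, `χT κ = 1`,
`F (g u) (m κ) = F g m` on the admissible pairs), then `W(g u) = W(g)`. -/
theorem whit_right_inv_h510 (D : KData K) (hgood : D.Good) (W : A0.G K → ℂ) (hW : D.IsWhit W)
    (u κ : A0.G K) (hadm : Adm D.t D.n u κ) (hχ : D.χT κ = 1)
    (hF : ∀ (g m : A0.G K) (ξ : A0.Adl K × A0.Adl K), Adm D.t D.n g m →
      D.F (g * u) (m * κ) ξ = D.F g m ξ) (g : A0.G K) :
    W (g * u) = W g := by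
  by_cases hg : InGPlus D.t D.n g
  · obtain ⟨mg, hmg⟩ := hg
    have hadm' : Adm D.t D.n (g * u) (mg * κ) :=
      ⟨inTorus_mul_h510 hmg.1 hadm.1, by rw [map_mul, map_mul, hmg.2, hadm.2]⟩
    rw [hW.formula (g * u) (mg * κ) hadm', hW.formula g mg hmg]
    refine intT_congr_h510 D hgood.measured.carried _ _ fun m hm => ?_
    have hm1 : InTorus D.t D.n (m * mg) := inTorus_mul_h510 hm.1 hmg.1
    have hadm1 : Adm D.t D.n g (m * mg) := ⟨hm1, by rw [map_mul, hm.2, one_mul, hmg.2]⟩
    rw [← mul_assoc, hF g (m * mg) (1, 0) hadm1, hgood.torus.mul (m * mg) κ hm1 hadm.1, hχ,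
      mul_one]
  · have hgu : ¬ InGPlus D.t D.n (g * u) := by
      rintro ⟨m', hm'⟩
      refine hg ⟨m' * κ⁻¹, inTorus_mul_h510 hm'.1 (inTorus_inv_h510 hadm.1), ?_⟩
      rw [map_mul, map_inv, ← hm'.2, map_mul, ← hadm.2, mul_inv_cancel_right]
    rw [hW.off g hg, hW.off (g * u) hgu]

/-- **A2.03.7.3 ARCH-INV.** -/
theorem archInvC_h510 : H416.ArchInvC := by
  intro K _ _ D _ hgood W hW
  refine ⟨fun w z hz g => ?_, fun w k hk g => ?_⟩
  · obtain ⟨κ, hadm, hχ, hF⟩ := hgood.right_inv.arch_scalar w z hz
    exact whit_right_inv_h510 D hgood W hW z κ hadm hχ hF g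
  · obtain ⟨κ, hadm, hχ, hF⟩ := hgood.right_inv.arch_compact w k hk
    exact whit_right_inv_h510 D hgood W hW k κ hadm hχ hF g

/-- The same for the level group (not asked by the leaf; same proof). -/
theorem whit_level_inv_h510 (K : Type) [Field K] [NumberField K] (D : KData K)
    (hgood : D.Good) (W : A0.G K → ℂ) (hW : D.IsWhit W) (u : A0.G K)
    (hu : A0.InLevelGroup D.π.level u) (g : A0.G K) : W (g * u) = W g := by
  obtain ⟨κ, hadm, hχ, hF⟩ := hgood.right_inv.level u hu
  exact whit_right_inv_h510 D hgood W hW u κ hadm hχ hF g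

end Fermat.Agent.LT.A2.H510

end
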